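import Mathlib
import Fermat.Agent.Lib.Mazur.G.An.Transport
import Fermat.Agent.Lib.Helper6.FrobeniusExists
import Fermat.Prelude.Def_FLTPrelim_GaloisRep
import Fermat.Prelude.Def_FLTPrelim_Ramification

set_option autoImplicit false

open WeierstrassCurve WeierstrassCurve.Affine

namespace Fermat.Agent.Mazur

local notation "Qb" => AlgebraicClosure ℚ
local notation "GQ" => (AlgebraicClosure ℚ ≃ₐ[ℚ] AlgebraicClosure ℚ)

/-- an element of `ℚ̄` fixed by the whole Galois group is rational -/
theorem mzgm_exists_rat_of_fixed (x : Qb) (hx : ∀ σ : GQ, σ x = x) :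
    ∃ r : ℚ, algebraMap ℚ Qb r = x := by
  have := Fermat.Agent.Lib.Helper6.isGalois_rat_algebraicClosure
  have h := (InfiniteGalois.mem_bot_iff_fixed (k := ℚ) (K := Qb) x).mpr hx
  rw [IntermediateField.mem_bot] at h
  exact h

section Compat

variable {F K : Type*} [Field F] [Field K] [DecidableEq F] [DecidableEq K] (f : F →+* K)
  (W : WeierstrassCurve F)

theorem mzgm_psi2_map (P : W.toAffine.Point) :
    mzgaPsi2 (W.map f) (mzgaMapPoint f W P) = f (mzgaPsi2 W P) := by
  rcases P with _ | ⟨x, y, h⟩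
  · exact (map_one f).symm
  · show 2 * f y + (W.map f).a₁ * f x + (W.map f).a₃ = f (2 * y + W.a₁ * x + W.a₃)
    simp [map_ofNat]

theorem mzgm_pi_map (Q : W.toAffine.Point) (p : ℕ) :
    mzgaPi (W.map f) (mzgaMapPoint f W Q) p = f (mzgaPi W Q p) := by
  unfold mzgaPi
  rw [map_prod]
  refine Finset.prod_congr rfl fun m _ => ?_
  rw [← map_nsmul, mzgm_psi2_map]

theorem mzgm_addOrderOf_map (Q : W.toAffine.Point) :
    addOrderOf (mzgaMapPoint f W Q) = addOrderOf Q :=
  addOrderOf_injective (mzgaMapPoint f W) (mzgaMapPoint_injective f W) Q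

end Compat

/-- **Rational descent**: a point over `ℚ̄` fixed by `G_ℚ` is the base change of a rational point -/
theorem mzgm_descent (Wq : WeierstrassCurve ℚ) (Q : (Wq.toAffine⁄Qb).Point)
    (hQ : ∀ σ : GQ, σ • Q = Q) :
    ∃ Q' : Wq.toAffine.Point, mzgaMapPoint (algebraMap ℚ Qb) Wq Q' = Q := by
  rcases Q with _ | ⟨x, y, h⟩
  · exact ⟨0, rfl⟩
  · have hx : ∀ σ : GQ, σ x = x := by
      intro σ
      have := hQ σ
      rw [Point.algEquiv_smul_def, Point.map_some] at this
      exact (Point.some.inj this).1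
    have hy : ∀ σ : GQ, σ y = y := by
      intro σ
      have := hQ σ
      rw [Point.algEquiv_smul_def, Point.map_some] at this
      exact (Point.some.inj this).2
    obtain ⟨rx, rfl⟩ := mzgm_exists_rat_of_fixed x hx
    obtain ⟨ry, rfl⟩ := mzgm_exists_rat_of_fixed y hy
    have h' : Wq.toAffine.Nonsingular rx ry :=
      (Wq.toAffine.map_nonsingular (algebraMap ℚ Qb).injective rx ry).mp h
    exact ⟨.some rx ry h', rfl⟩

end Fermat.Agent.Mazur
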