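import Mathlib
import Fermat.Agent.Lib.Mazur.G.Main.Descent
import Fermat.Agent.Lib.Mazur.G.An.Analytic
import Fermat.Agent.Lib.Mazur.G.Loc.Local
import Fermat.Agent.Lib.Mazur.G.Pl.Place
import Fermat.Agent.Lib.Mazur.G.Ns.Fixed
import Fermat.Agent.Lib.Mazur.G.CV.Main

/-!
# MAZUR (G): final assembly `mzg_main`

From a Weierstrass curve `W` over `ℤ` with `Δ ≠ 0` and a `G_ℚ`-fixed point `Q` of odd prime order
`p` over `ℚ̄`: a place `x` of `X₀(p)` over `ℚ̄` and values `j₁ = j(W)`, `j₂ = j_p(x)` such that, at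
every place `A` of `ℚ̄` above a prime `ℓ ≠ p` of multiplicative reduction,
`v(j₁) > 1`, and
* if `Q` lies in the zero component at `A`: `v(j₂) = v(j₁)^p` and `x` is fixed by `G_ℚ`;
* otherwise: `v(j₁) = v(j₂)^p`.
Inputs: An (`mzga_analytic`), Pl (`mzgp_place`), Loc (`mzgl_local_I/II`), NP/CV (helper7:
`mzg_newton_small`, `mzg_convert`, `mzg_convert_rel`), Ns (`mzgn_galois_fixed`).
-/

set_option autoImplicit false
set_option linter.unusedSectionVars false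
set_option linter.style.haveILetI false

open WeierstrassCurve WeierstrassCurve.Affine

namespace Fermat.Agent.Mazur

open ModularCurve Polynomial
open AlgebraicCurve Fermat.Agent.Curve Fermat.Agent.Curve.PlaceAux Fermat.Agent.Igusa
  Fermat.Agent.T1 Fermat.Agent.T2 Fermat.Agent.ET

local notation "Qb" => AlgebraicClosure ℚ
local notation "GQ" => (AlgebraicClosure ℚ ≃ₐ[ℚ] AlgebraicClosure ℚ)

section Val

variable {L : Type*} [Field L] (A : ValuationSubring L) {ℓ : ℕ}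

/-- an integer prime to `ℓ` is a unit at a place above `ℓ` -/
theorem mzgm_val_int_of_not_dvd (hA : A.LiesOverPrime ℓ) (hℓ : ℓ.Prime) {n : ℤ}
    (h : ¬ (ℓ : ℤ) ∣ n) : A.valuation (n : L) = 1 := by
  have hℓlt : A.valuation (ℓ : L) < 1 := (ValuationSubring.mem_nonunits_iff (A := A)).mp hA
  refine le_antisymm ((A.valuation_le_one_iff _).mpr (intCast_mem A n)) ?_
  by_contra hlt
  rw [not_le] at hlt
  have hcop : IsCoprime (ℓ : ℤ) n :=
    (Nat.prime_iff_prime_int.mp hℓ).coprime_iff_not_dvd.mpr h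
  obtain ⟨a, b, hab⟩ := hcop
  have hL : (a : L) * (ℓ : L) + (b : L) * (n : L) = 1 := by
    have := congrArg (Int.cast : ℤ → L) hab
    push_cast at this
    exact this
  have h1 : A.valuation (1 : L) < 1 := by
    rw [← hL]
    exact A.valuation.map_add_lt (etg_mul_lt (intCast_mem A _) hℓlt)
      (etg_mul_lt (intCast_mem A _) hlt)
  rw [map_one] at h1
  exact lt_irrefl _ h1

/-- an integer divisible by `ℓ` is a non-unit at a place above `ℓ` -/
theorem mzgm_val_int_of_dvd (hA : A.LiesOverPrime ℓ) {n : ℤ}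
    (h : (ℓ : ℤ) ∣ n) : A.valuation (n : L) < 1 := by
  have hℓlt : A.valuation (ℓ : L) < 1 := (ValuationSubring.mem_nonunits_iff (A := A)).mp hA
  obtain ⟨k, rfl⟩ := h
  push_cast
  exact etg_mul_lt' hℓlt (intCast_mem A k)

end Val

section Main

open UpperHalfPlane
open Fermat.Agent.S24Lib in
/-- the embedding `ℚ̄ → ℂ` on rational numbers -/
theorem mzgm_algebraMap_rat (r : ℚ) : algebraMap Qb ℂ (algebraMap ℚ Qb r) = (r : ℂ) := by
  rw [algebraMap_Kbar_complex, iotaC_algebraMap]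
  rfl

variable {p : ℕ} [NeZero p]

open Fermat.Agent.S24Lib in
/-- the place attached to a rational point of order `p` on an elliptic curve over `ℚ` -/
theorem mzgm_core (hp : p.Prime) (hp2 : p ≠ 2) (Wq : WeierstrassCurve ℚ) [Wq.IsElliptic]
    (Q' : Wq.toAffine.Point) (hord' : addOrderOf Q' = p) :
    ∃ x : Place Qb ↥(modularFunctionFieldBar p),
      0 < x.ord (tbJ p - algebraMap Qb ↥(modularFunctionFieldBar p) (algebraMap ℚ Qb Wq.j)) ∧
      0 < x.ord (mzgpU p - algebraMap Qb ↥(modularFunctionFieldBar p)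
        (algebraMap ℚ Qb (Wq.Δ ^ (p - 1) / mzgaPi Wq Q' p ^ 4))) ∧
      Wq.Δ ^ (p - 1) / mzgaPi Wq Q' p ^ 4 ≠ 0 := by
  obtain ⟨τ, τ', hτ', hjτ, hUτ⟩ := mzga_analytic hp hp2 Wq Q' hord'
  have hj : algebraMap Qb ℂ (algebraMap ℚ Qb Wq.j) = Fermat.Agent.S24Lib.jFun τ := by
    rw [mzgm_algebraMap_rat, hjτ]
  have hU : (p : ℂ) ^ 12 * ModularForm.discriminant τ' =
      algebraMap Qb ℂ (algebraMap ℚ Qb (Wq.Δ ^ (p - 1) / mzgaPi Wq Q' p ^ 4)) *
        ModularForm.discriminant τ := by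
    rw [mzgm_algebraMap_rat, hUτ]
  obtain ⟨x, hxj, hxU⟩ := mzgp_place hp.two_le τ τ' hτ' _ _ hj hU
  refine ⟨x, hxj, hxU, ?_⟩
  intro h0
  rw [h0] at hUτ
  have h1 : (p : ℂ) ^ 12 * ModularForm.discriminant τ' ≠ 0 :=
    mul_ne_zero (pow_ne_zero _ (by exact_mod_cast hp.ne_zero))
      (ModularForm.discriminant_ne_zero τ')
  apply h1
  rw [hUτ]
  simp

/-- **MAZUR (G), main theorem**: the moduli point of `(W, Q)` on `X₀(p)`. -/
theorem mzg_main (hp : p.Prime) (hp2 : p ≠ 2) (W : WeierstrassCurve ℤ) (hΔ : W.Δ ≠ 0)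
    (Q : ((W.map (Int.castRingHom ℚ))⁄Qb).toAffine.Point)
    (hQfix : ∀ σ : GQ, σ • Q = Q) (hQord : addOrderOf Q = p) :
    ∃ (x : Place Qb ↥(modularFunctionFieldBar p)) (j₁ j₂ : Qb),
      OrdGE x (tbJ p - algebraMap Qb ↥(modularFunctionFieldBar p) j₁) 1 ∧
      OrdGE x (t2cpYq p p (dvd_refl p) - algebraMap Qb ↥(modularFunctionFieldBar p) j₂) 1 ∧
      ∀ ℓ : ℕ, ℓ.Prime → ℓ ≠ p → (ℓ : ℤ) ∣ W.Δ → ¬ (ℓ : ℤ) ∣ W.c₄ →
        ∀ A : ValuationSubring Qb, A.LiesOverPrime ℓ →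
          1 < A.valuation j₁ ∧
          (W.InZeroComponentAt A Q → A.valuation j₂ = A.valuation j₁ ^ p ∧
            ∀ σ : GQ, arithmeticGalois (modularFunctionFieldFull p) σ • x = x) ∧
          (¬ W.InZeroComponentAt A Q → A.valuation j₁ = A.valuation j₂ ^ p) := by
  have hΔq : (W.map (Int.castRingHom ℚ)).Δ = ((W.Δ : ℤ) : ℚ) := by
    rw [WeierstrassCurve.map_Δ]; rfl
  have hc₄q : (W.map (Int.castRingHom ℚ)).c₄ = ((W.c₄ : ℤ) : ℚ) := by
    rw [WeierstrassCurve.map_c₄]; rfl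
  have hΔq0 : (W.map (Int.castRingHom ℚ)).Δ ≠ 0 := by rw [hΔq]; exact_mod_cast hΔ
  haveI : (W.map (Int.castRingHom ℚ)).IsElliptic := ⟨isUnit_iff_ne_zero.mpr hΔq0⟩
  obtain ⟨Q', hQ'⟩ := mzgm_descent (W.map (Int.castRingHom ℚ)) Q hQfix
  have hord' : addOrderOf Q' = p := by
    rw [← mzgm_addOrderOf_map (algebraMap ℚ Qb) (W.map (Int.castRingHom ℚ)) Q']
    rw [hQ']
    exact hQord
  obtain ⟨x, hxj, hxU, hU0⟩ := mzgm_core hp hp2 (W.map (Int.castRingHom ℚ)) Q' hord'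
  set j₁ : Qb := algebraMap ℚ Qb (W.map (Int.castRingHom ℚ)).j with hj₁def
  set U₁ : Qb := algebraMap ℚ Qb ((W.map (Int.castRingHom ℚ)).Δ ^ (p - 1) /
    mzgaPi (W.map (Int.castRingHom ℚ)) Q' p ^ 4) with hU₁def
  have hxj' : OrdGE x (tbJ p - algebraMap Qb ↥(modularFunctionFieldBar p) j₁) 1 :=
    (ordGE_iff x).mpr (Or.inr (by omega))
  have hxU' : OrdGE x (mzgU p p (dvd_refl p) - algebraMap Qb ↥(modularFunctionFieldBar p) U₁) 1 :=
    (ordGE_iff x).mpr (Or.inr (by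
      have : mzgU p p (dvd_refl p) = mzgpU p := rfl
      rw [this]; omega))
  obtain ⟨j₂, hj₂, hconv⟩ := mzg_convert hp x j₁ U₁ hxj' hxU'
  obtain ⟨-, -, hrel1, -⟩ := mzg_convert_rel hp x j₁ U₁ hxj' hxU'
  have hj₁fix : ∀ σ : GQ, σ j₁ = j₁ := fun σ => σ.commutes _
  have hU₁fix : ∀ σ : GQ, σ U₁ = U₁ := fun σ => σ.commutes _
  -- the product `Π` over `ℚ̄` is the image of the product over `ℚ`
  have hPi : mzgaPi ((W.map (Int.castRingHom ℚ))⁄Qb) Q p =
      algebraMap ℚ Qb (mzgaPi (W.map (Int.castRingHom ℚ)) Q' p) := by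
    rw [← hQ']
    exact mzgm_pi_map (algebraMap ℚ Qb) (W.map (Int.castRingHom ℚ)) Q' p
  have hPiq0 : mzgaPi (W.map (Int.castRingHom ℚ)) Q' p ≠ 0 := by
    intro h0
    apply hU0
    rw [h0, zero_pow (by norm_num), div_zero]
  -- `j₁ Δ = c₄³` and `U₁ Π⁴ = Δ^(p-1)` in `ℚ̄`
  have hjrel : j₁ * ((W.Δ : ℤ) : Qb) = ((W.c₄ : ℤ) : Qb) ^ 3 := by
    have h1 : (W.map (Int.castRingHom ℚ)).j * (W.map (Int.castRingHom ℚ)).Δ =
        (W.map (Int.castRingHom ℚ)).c₄ ^ 3 := by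
      rw [WeierstrassCurve.j, ← WeierstrassCurve.coe_Δ']
      rw [mul_comm, ← mul_assoc, Units.mul_inv, one_mul]
    rw [hΔq, hc₄q] at h1
    have h2 := congrArg (algebraMap ℚ Qb) h1
    rw [map_mul, map_pow] at h2
    rw [hj₁def]
    simpa using h2
  have hUrel : U₁ * mzgaPi ((W.map (Int.castRingHom ℚ))⁄Qb) Q p ^ 4 =
      ((W.Δ : ℤ) : Qb) ^ (p - 1) := by
    rw [hPi, hU₁def, ← map_pow, ← map_mul, div_mul_cancel₀ _ (pow_ne_zero 4 hPiq0), hΔq, map_pow]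
    simp
  have hU₁0 : U₁ ≠ 0 := by
    rw [hU₁def, Ne, map_eq_zero_iff _ (algebraMap ℚ Qb).injective]
    exact hU0
  refine ⟨x, j₁, j₂, hxj', hj₂, ?_⟩
  intro ℓ hℓ hℓp hℓΔ hℓc₄ A hA
  have hAp : A.valuation (p : Qb) = 1 := mzgl_val_prime_of_liesOver A hA hℓ hp hℓp
  have hvΔ : A.valuation ((W.Δ : ℤ) : Qb) < 1 := mzgm_val_int_of_dvd A hA hℓΔ
  have hvc : A.valuation ((W.c₄ : ℤ) : Qb) = 1 := mzgm_val_int_of_not_dvd A hA hℓ hℓc₄
  have hΔQb : ((W.Δ : ℤ) : Qb) ≠ 0 := by exact_mod_cast hΔ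
  have hvΔ0 : A.valuation ((W.Δ : ℤ) : Qb) ≠ 0 := (Valuation.ne_zero_iff _).mpr hΔQb
  have hvj : A.valuation j₁ * A.valuation ((W.Δ : ℤ) : Qb) = 1 := by
    rw [← map_mul, hjrel, map_pow, hvc, one_pow]
  have hj₁ : 1 < A.valuation j₁ := by
    by_contra hle
    rw [not_lt] at hle
    have : A.valuation j₁ * A.valuation ((W.Δ : ℤ) : Qb) < 1 :=
      lt_of_le_of_lt (mul_le_of_le_one_left zero_le hle) hvΔ
    rw [hvj] at this
    exact lt_irrefl _ this
  have hvU : A.valuation U₁ * A.valuation (mzgaPi ((W.map (Int.castRingHom ℚ))⁄Qb) Q p) ^ 4 =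
      A.valuation ((W.Δ : ℤ) : Qb) ^ (p - 1) := by
    rw [← map_pow, ← map_mul, hUrel, map_pow]
  have hp1 : p - 1 ≠ 0 := by have := hp.two_le; omega
  refine ⟨hj₁, ?_, ?_⟩
  · intro hI
    have hvPi := mzgl_local_I hp hp2 W hΔ Q hQord A hAp hI
    rw [hvPi, one_pow, mul_one] at hvU
    have hvU1 : A.valuation U₁ < 1 := by
      rw [hvU]
      exact pow_lt_one₀ zero_le hvΔ hp1
    refine ⟨(hconv A hAp hj₁).1 hvU1, ?_⟩
    have hsmall := (mzg_newton_small A.valuation hp hAp hj₁ hrel1 hvU1.le).2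
    have hsimple : evalEval j₁ U₁ (derivative (modPsiK p hp Qb)) ≠ 0 := by
      intro h0
      rw [h0, map_zero] at hsmall
      have : A.valuation j₁ ^ (p - 1) ≠ 0 :=
        pow_ne_zero _ (ne_of_gt (lt_trans zero_lt_one hj₁))
      exact this hsmall.symm
    intro σ
    exact mzgn_galois_fixed p hp j₁ U₁ hj₁fix hU₁fix
      (by rw [mzgn_simple_eq]; exact hsimple) x hxj hxU σ
  · intro hII
    have hvPi := mzgl_local_II hp W hΔ Q hQord A hAp hII
    have hvU1 : 1 < A.valuation U₁ := by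
      by_contra hle
      rw [not_lt] at hle
      have hsmall := (mzg_newton_small A.valuation hp hAp hj₁ hrel1 hle).1
      -- `v(U₁) = v(Δ)^(p-1)`
      have h1 : A.valuation U₁ = A.valuation ((W.Δ : ℤ) : Qb) ^ (p - 1) := by
        calc A.valuation U₁
            = A.valuation U₁ * (A.valuation j₁ * A.valuation ((W.Δ : ℤ) : Qb)) ^ (p - 1) := by
              rw [hvj, one_pow, mul_one]
          _ = (A.valuation U₁ * A.valuation j₁ ^ (p - 1)) *
                A.valuation ((W.Δ : ℤ) : Qb) ^ (p - 1) := by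
              rw [mul_pow, mul_assoc]
          _ = A.valuation ((W.Δ : ℤ) : Qb) ^ (p - 1) := by rw [hsmall, one_mul]
      rw [← h1] at hvU
      have hvU0 : A.valuation U₁ ≠ 0 := (Valuation.ne_zero_iff _).mpr hU₁0
      have h2 : A.valuation (mzgaPi ((W.map (Int.castRingHom ℚ))⁄Qb) Q p) ^ 4 = 1 := by
        have := mul_left_cancel₀ hvU0 (hvU.trans (mul_one _).symm)
        exact this
      have h3 : A.valuation (mzgaPi ((W.map (Int.castRingHom ℚ))⁄Qb) Q p) = 1 :=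
        (pow_eq_one_iff_of_nonneg zero_le (by norm_num)).mp h2
      rw [h3] at hvPi
      exact lt_irrefl _ hvPi
    exact (hconv A hAp hj₁).2 hvU1

end Main

end Fermat.Agent.Mazur
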